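import Mathlib
import Fermat.Agent.S17.GDiv.Defs

/-!
# S17 / G-DIV, algebraic line: piece GENSTAB (helper560)

`stmtGENSTAB : StmtRIG N L → StmtCUSPRAT N L → StmtZRAT N L → StmtGENSTAB N L`

The set of generic classes over `K₀` is stable under `n •` (`n ≠ 0`) and under translation by
classes of `K₀`-rational divisors.

Proof (`coord/S17-GDIV.md` v2, origin/helper797).  Let `ξ = cls P`, `P` generic over `K₀`,
`ℓ(ΣP_i) = 1`, and `z = n ξ` or `z = [B] + ξ`.  `E_z := minRep z` (`m ≤ g` points), `S := supp E_z`,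
`K₁ :=` the relative algebraic closure in `L` of `K₀(tval Q : Q ∈ S)`.  By ZRAT all `Q ∈ S` are
rational over `K₁`; RIG gives that `minRep ξ = ΣP_i` is rational over `K₁`, so `tval P_i ∈ K₁`.
Steinitz exchange (Mathlib's algebraic-independence matroid): `g` independent elements in the
algebraic closure of `K₀(≤ g elements)` force `#S = g`, all multiplicities `1`, `t` finite on `S`
and the `tval Q`, `Q ∈ S`, algebraically independent over `K₀`.  Hence `z = cls Q ∈ Gen K₀`.

Mathlib-only parts: `steinitz560`, `relClosure560`.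
-/

set_option autoImplicit false

noncomputable section

open AlgebraicCurve ModularCurve

namespace Fermat.Agent.S17.H560

open Fermat.Agent.Lib.RR Fermat.Agent.S17.H680 Fermat.Agent.S17.GDiv

section Steinitz

open AlgebraicIndependent

variable {L : Type*} [Field L]

/-- **Steinitz exchange**, in the form needed: if `g` elements, algebraically independent over
`K₀`, are algebraic over `K₀(T(S))` with `#S ≤ g`, then `#S = g`, `T` is injective on `S` and
the `T s`, `s ∈ S`, are algebraically independent over `K₀`. -/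
theorem steinitz560 (K₀ : Subfield L) {ι σ : Type*} [Fintype ι]
    (x : ι → L) (hx : AlgebraicIndependent K₀ x)
    (S : Finset σ) (T : σ → L) (hcard : S.card ≤ Fintype.card ι)
    (hxT : ∀ i, IsAlgebraic (Algebra.adjoin K₀ (T '' (S : Set σ))) (x i)) :
    S.card = Fintype.card ι ∧ Set.InjOn T (S : Set σ) ∧
      AlgebraicIndependent K₀ (fun s : S => T s) := by
  classical
  set M := matroid K₀ L with hM
  have hI : M.Indep (Set.range x) := matroid_indep_iff.mpr hx.to_subtype_range
  have hsub : Set.range x ⊆ M.closure (T '' (S : Set σ)) := by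
    rintro _ ⟨i, rfl⟩
    rw [hM, matroid_closure_eq, SetLike.mem_coe, Subalgebra.mem_algebraicClosure]
    exact hxT i
  have h1 : (Set.range x).encard ≤ M.eRk (T '' (S : Set σ)) := by
    have := hI.encard_le_eRk_of_subset hsub
    rwa [Matroid.eRk_closure_eq] at this
  have h2 : M.eRk (T '' (S : Set σ)) ≤ (T '' (S : Set σ)).encard := M.eRk_le_encard _
  have h3 : (T '' (S : Set σ)).encard ≤ (S : Set σ).encard := Set.encard_image_le _ _
  have h4 : (S : Set σ).encard = S.card := Set.encard_coe_eq_coe_finsetCard S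
  have h5 : (Set.range x).encard = Fintype.card ι := by
    rw [← Set.image_univ, hx.injective.injOn.encard_image, Set.encard_univ,
      ENat.card_eq_coe_fintype_card]
  have h6 : ((S.card : ℕ) : ℕ∞) ≤ (Fintype.card ι : ℕ∞) := by exact_mod_cast hcard
  have e1 : (S : Set σ).encard = (Set.range x).encard := by
    apply le_antisymm
    · rw [h4, h5]; exact h6
    · exact h1.trans (h2.trans h3)
  have e2 : (T '' (S : Set σ)).encard = (S : Set σ).encard := by
    apply le_antisymm h3
    rw [e1]; exact h1.trans h2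
  have e3 : M.eRk (T '' (S : Set σ)) = (T '' (S : Set σ)).encard := by
    apply le_antisymm h2
    rw [e2, e1]; exact h1
  have hinj : Set.InjOn T (S : Set σ) := S.finite_toSet.injOn_of_encard_image_eq e2
  have hind : M.Indep (T '' (S : Set σ)) :=
    (Matroid.indep_iff_eRk_eq_encard_of_finite (S.finite_toSet.image T)).mpr e3
  refine ⟨?_, hinj, ?_⟩
  · have := e1
    rw [h4, h5] at this
    exact_mod_cast this
  · have hind' : AlgebraicIndependent K₀ (fun a : (T '' (S : Set σ)) => (a : L)) :=
      matroid_indep_iff.mp hind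
    let f : S → ↥(T '' (S : Set σ)) := fun s => ⟨T s, Set.mem_image_of_mem T s.2⟩
    have hf : Function.Injective f := by
      intro a b hab
      apply Subtype.ext
      exact hinj a.2 b.2 (congrArg Subtype.val hab)
    exact hind'.comp f hf

end Steinitz


section RelClosure

variable {L : Type*} [Field L]

/-- The relative algebraic closure in `L` of `K₀(s)`, as a subfield of `L`. -/
def relClosure560 (K₀ : Subfield L) (s : Set L) : Subfield L where
  carrier := {a | IsAlgebraic (Algebra.adjoin K₀ s) a}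
  mul_mem' := fun ha hb => IsAlgebraic.mul ha hb
  one_mem' := isAlgebraic_one
  add_mem' := fun ha hb => IsAlgebraic.add ha hb
  zero_mem' := isAlgebraic_zero
  neg_mem' := fun ha => IsAlgebraic.neg ha
  inv_mem' := fun _ ha => IsAlgebraic.inv ha

theorem mem_relClosure560 {K₀ : Subfield L} {s : Set L} {a : L} :
    a ∈ relClosure560 K₀ s ↔ IsAlgebraic (Algebra.adjoin K₀ s) a := Iff.rfl

theorem le_relClosure560 (K₀ : Subfield L) (s : Set L) : K₀ ≤ relClosure560 K₀ s := by
  intro a ha
  rw [mem_relClosure560]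
  exact isAlgebraic_algebraMap
    (⟨a, (Algebra.adjoin K₀ s).algebraMap_mem ⟨a, ha⟩⟩ : Algebra.adjoin K₀ s)

theorem subset_relClosure560 (K₀ : Subfield L) (s : Set L) :
    s ⊆ (relClosure560 K₀ s : Set L) := by
  intro a ha
  exact isAlgebraic_algebraMap (⟨a, Algebra.subset_adjoin ha⟩ : Algebra.adjoin K₀ s)

theorem relClosure560_closed (K₀ : Subfield L) (s : Set L) (x : L)
    (hx : IsAlgebraic (relClosure560 K₀ s) x) : x ∈ relClosure560 K₀ s := by
  rw [mem_relClosure560]
  set A' := Subalgebra.algebraicClosure (Algebra.adjoin K₀ s) L with hA'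
  have hmem : ∀ a : L, a ∈ relClosure560 K₀ s ↔ a ∈ A' := fun a => by
    rw [mem_relClosure560, hA', Subalgebra.mem_algebraicClosure]
  let f : relClosure560 K₀ s ≃+* A' :=
    { toFun := fun a => ⟨a.1, (hmem a.1).mp a.2⟩
      invFun := fun a => ⟨a.1, (hmem a.1).mpr a.2⟩
      left_inv := fun _ => rfl
      right_inv := fun _ => rfl
      map_mul' := fun _ _ => rfl
      map_add' := fun _ _ => rfl }
  have h1 : IsAlgebraic A' x := by
    have := (isAlgebraic_ringHom_iff_of_comp_eq (R := relClosure560 K₀ s) (S := A') (A := L)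
      (B := L) f (RingHom.id L) Function.injective_id (by ext a; rfl) (a := x)).mpr hx
    simpa using this
  exact h1.restrictScalars (Algebra.adjoin K₀ s)

end RelClosure


section Laurent

variable (N : ℕ) [NeZero N] (L : Type) [Field L] [Algebra ℚ L]

theorem coe_tL560 : ((tL N L : FL N L) : LaurentSeries L) = coeffEmb L jq := rfl

theorem coe_tL_sub560 (c : L) :
    ((tL N L - algebraMap L (FL N L) c : FL N L) : LaurentSeries L)
      = coeffEmb L jq - algebraMap L (LaurentSeries L) c := rfl

theorem coeff_tL_sub560 (c : L) (m : ℤ) :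
    ((tL N L - algebraMap L (FL N L) c : FL N L) : LaurentSeries L).coeff m
      = algebraMap ℚ L (jq.coeff m) - if m = 0 then c else 0 := by
  rw [coe_tL_sub560, HahnSeries.coeff_sub, coeffEmb_coeff, algebraMap_laurentSeries_eq_single]
  by_cases hm : m = 0
  · subst hm; simp
  · rw [HahnSeries.coeff_single_of_ne hm, if_neg hm]

theorem order_tL_sub_neg560 (c : L) :
    ((tL N L - algebraMap L (FL N L) c : FL N L) : LaurentSeries L).order < 0 := by
  have h : ((tL N L - algebraMap L (FL N L) c : FL N L) : LaurentSeries L).order ≤ -1 :=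
    HahnSeries.order_le_of_coeff_ne_zero (by
      rw [coeff_tL_sub560, coeff_jq_neg_one, map_one, if_neg (by norm_num), sub_zero]
      exact one_ne_zero)
  omega

theorem tL_sub_ne_zero560 (c : L) : tL N L - algebraMap L (FL N L) c ≠ 0 := by
  intro h
  have := order_tL_sub_neg560 N L c
  rw [h] at this
  simp at this

theorem tL_ne_zero560 : tL N L ≠ 0 := by
  have := tL_sub_ne_zero560 N L 0
  simpa using this

theorem coeffsIn_tL_sub560 (K₁ : Subfield L) {c : L} (hc : c ∈ K₁) :
    CoeffsIn K₁ (tL N L - algebraMap L (FL N L) c) := by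
  intro m
  rw [coeff_tL_sub560]
  apply K₁.sub_mem
  · rw [eq_ratCast]; exact SubfieldClass.ratCast_mem K₁ _
  · split_ifs
    · exact hc
    · exact K₁.zero_mem

theorem coeffsIn_tL560 (K₁ : Subfield L) : CoeffsIn K₁ (tL N L) := by
  have := coeffsIn_tL_sub560 N L K₁ K₁.zero_mem
  simpa using this

end Laurent

section Places

variable {N : ℕ} [NeZero N] {L : Type} [Field L] [Algebra ℚ L] [FF1 L (FL N L)]

omit [FF1 L (FL N L)] in
/-- `t = j` has a pole at the cusp. -/
theorem not_hasValue_cusp560 (c : L) : ¬ HasValue (cuspL N L) (tL N L) c := by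
  rintro (h | h)
  · exact tL_sub_ne_zero560 N L c h
  · have hmem : tL N L - algebraMap L (FL N L) c ∈ (cuspL N L).toValuationSubring :=
      mem_of_ord_nonneg _ h.le
    have h0 : 0 ≤ ((tL N L - algebraMap L (FL N L) c : FL N L) : LaurentSeries L).order :=
      (mem_cuspInf (modularFunctionFieldFull N) (exists_order_neg N L) _).mp hmem
    have := order_tL_sub_neg560 N L c
    omega

omit [FF1 L (FL N L)] in
theorem hasValue_tval560 {P : Place L (FL N L)} (h : ∃ c : L, HasValue P (tL N L) c) :
    HasValue P (tL N L) (tval P) := by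
  classical
  unfold tval
  rw [dif_pos h]
  exact h.choose_spec

omit [FF1 L (FL N L)] in
theorem tval_eq_zero560 {P : Place L (FL N L)} (h : ¬ ∃ c : L, HasValue P (tL N L) c) :
    tval P = 0 := by
  classical
  unfold tval
  rw [dif_neg h]

theorem ord_tL_neg560 {P : Place L (FL N L)} (h : ¬ ∃ c : L, HasValue P (tL N L) c) :
    P.ord (tL N L) < 0 := by
  by_contra hn
  push Not at hn
  obtain ⟨c, hc⟩ := exists_const_sub P (deg_eq_one P) hn
  exact h ⟨c, hc⟩

end Places


section Rational

variable {N : ℕ} [NeZero N] {L : Type} [Field L] [Algebra ℚ L] [FF1 L (FL N L)]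

/-- With ZRAT: a place whose `t`-value lies in `K₁` is rational over `K₁`. -/
theorem isRationalOver_of_tval_mem560 (hZRAT : StmtZRAT N L) {K₁ : Subfield L}
    (hK₁ : AlgClosedIn K₁) {P : Place L (FL N L)} (h : tval P ∈ K₁) : IsRationalOver K₁ P := by
  by_cases hfin : ∃ c : L, HasValue P (tL N L) c
  · refine hZRAT K₁ hK₁ _ (coeffsIn_tL_sub560 N L K₁ h) P ?_
    rcases hasValue_tval560 hfin with h0 | hpos
    · exact absurd h0 (tL_sub_ne_zero560 N L _)
    · exact hpos.ne'
  · exact hZRAT K₁ hK₁ _ (coeffsIn_tL560 N L K₁) P (ord_tL_neg560 hfin).ne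

omit [FF1 L (FL N L)] in
theorem tval_mem_of_isRationalOver560 {K₁ : Subfield L} {P : Place L (FL N L)}
    (h : IsRationalOver K₁ P) : tval P ∈ K₁ := by
  by_cases hfin : ∃ c : L, HasValue P (tL N L) c
  · exact h (jQ N) (tval P) (hasValue_tval560 hfin)
  · rw [tval_eq_zero560 hfin]; exact K₁.zero_mem

end Rational

section MinRep

variable {N : ℕ} [NeZero N] {L : Type} [Field L] [Algebra ℚ L] [FF1 L (FL N L)]

omit [NeZero N] [FF1 L (FL N L)] in
theorem sumPl_apply560 {m : ℕ} (P : Fin m → Place L (FL N L)) (v : Place L (FL N L)) :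
    sumPl P v = ∑ i, prim (P i) v := by
  simp [sumPl, Finsupp.finsetSum_apply]

omit [NeZero N] [FF1 L (FL N L)] in
theorem sumPl_nonneg560 {m : ℕ} (P : Fin m → Place L (FL N L)) : 0 ≤ sumPl P := by
  rw [Finsupp.le_def]
  intro v
  rw [sumPl_apply560]
  refine Finset.sum_nonneg fun i _ => ?_
  by_cases h : v = P i
  · subst h; simp
  · rw [prim_apply_of_ne h]

omit [NeZero N] [FF1 L (FL N L)] in
theorem sumPl_apply_pos560 {m : ℕ} (P : Fin m → Place L (FL N L)) (i : Fin m) :
    0 < sumPl P (P i) := by
  rw [sumPl_apply560]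
  have h1 : prim (P i) (P i) ≤ ∑ j, prim (P j) (P i) :=
    Finset.single_le_sum (f := fun j => prim (P j) (P i)) (fun j _ => by
      by_cases h : P i = P j
      · rw [h]; simp
      · rw [prim_apply_of_ne h]) (Finset.mem_univ i)
  rw [prim_apply_self] at h1
  omega

omit [NeZero N] [FF1 L (FL N L)] in
theorem sumPl_apply_eq_zero560 {m : ℕ} (P : Fin m → Place L (FL N L)) (v : Place L (FL N L))
    (hv : ∀ i, P i ≠ v) : sumPl P v = 0 := by
  rw [sumPl_apply560]
  exact Finset.sum_eq_zero fun i _ => prim_apply_of_ne (fun h => hv i h.symm)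

/-- The minimal representative of a generic non-special class is the generic divisor itself. -/
theorem minRep_cls560 {K₀ : Subfield L} {P : Fin (gL N L) → Place L (FL N L)}
    (hP : IsGenericTuple K₀ P) (hell : ell (sumPl P) = 1) :
    minDeg (cuspL N L) (cls P) = gL N L ∧ minRep (cuspL N L) (cls P) = sumPl P := by
  set x := cls P with hx
  set m' := minDeg (cuspL N L) x with hm'
  set E' := minRep (cuspL N L) x with hE'
  have hle : m' ≤ gL N L := minDeg_le_genus (cuspL N L) x
  have h1 : Pic0.mk (minDiv (cuspL N L) x)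
      = Pic0.mk ⟨sumPl P - (gL N L) • prim (cuspL N L), degree_sumPl_sub P⟩ :=
    mk_minDiv (cuspL N L) x
  obtain ⟨h, hh, e⟩ := mk_eq_mk_iff'.mp h1
  have e1 : sumPl P - (gL N L) • prim (cuspL N L)
      = E' - m' • prim (cuspL N L) + divOf h hh := e
  have e2 : sumPl P = E' + (gL N L - m') • prim (cuspL N L) + divOf h hh := by
    have : ((gL N L - m' : ℕ) • prim (cuspL N L) : Divisor L (FL N L))
        = (gL N L) • prim (cuspL N L) - m' • prim (cuspL N L) := by
      rw [sub_nsmul _ hle, sub_eq_add_neg]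
    rw [this]
    have := e1
    rw [sub_eq_iff_eq_add] at this
    rw [this]; abel
  have hE'' : 0 ≤ E' + (gL N L - m') • prim (cuspL N L) := by
    apply add_nonneg (minRep_nonneg _ _)
    apply nsmul_nonneg
    rw [Finsupp.le_def]
    intro v
    by_cases hv : v = cuspL N L
    · subst hv; simp
    · rw [prim_apply_of_ne hv]; simp
  have hinv : h⁻¹ ∈ riemannRochSpace (sumPl P) := by
    rw [mem_L_iff_nonneg (inv_ne_zero hh), divOf_inv h hh, e2]
    simpa using hE''
  have hone : (1 : FL N L) ∈ riemannRochSpace (sumPl P) := by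
    rw [mem_L_iff_nonneg one_ne_zero]
    have : divOf (K := L) (1 : FL N L) one_ne_zero = 0 := by
      ext v; simp [divOf_apply]
    rw [this, add_zero]
    exact sumPl_nonneg560 P
  have hdiv : divOf (K := L) h hh = 0 := by
    have := divOf_eq_of_ell_eq_one hell (inv_ne_zero hh) one_ne_zero hinv hone
    rw [divOf_inv] at this
    have h0 : divOf (K := L) (1 : FL N L) one_ne_zero = 0 := by
      ext v; simp [divOf_apply]
    rw [h0, neg_eq_zero] at this
    exact this
  rw [hdiv, add_zero] at e2
  have hcusp : ∀ i, P i ≠ cuspL N L := by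
    intro i hi
    obtain ⟨c, hc⟩ := hP.1 i
    rw [hi] at hc
    exact not_hasValue_cusp560 c hc
  have e3 := congrArg (fun D : Divisor L (FL N L) => D (cuspL N L)) e2
  simp only [Finsupp.add_apply, Finsupp.smul_apply, prim_apply_self] at e3
  rw [sumPl_apply_eq_zero560 P _ hcusp, hE', minRep_apply_infty] at e3
  have hm : m' = gL N L := by
    have : ((gL N L - m' : ℕ) : ℤ) = 0 := by
      have := e3
      simp at this
      omega
    omega
  refine ⟨hm, ?_⟩
  rw [e2, hm]
  simp

end MinRep


section Main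

variable {N : ℕ} [NeZero N] {L : Type} [Field L] [Algebra ℚ L] [FF1 L (FL N L)]

omit [NeZero N] in
/-- A nonnegative divisor has at most `deg` points in its support; in case of equality all
multiplicities are `1`. -/
theorem card_support_le_degree560 {E : Divisor L (FL N L)} (hE : 0 ≤ E) :
    (E.support.card : ℤ) ≤ Divisor.degree E ∧
      ((E.support.card : ℤ) = Divisor.degree E → ∀ v ∈ E.support, E v = 1) := by
  have hpos : ∀ v ∈ E.support, 1 ≤ E v := by
    intro v hv
    have h0 : (0 : ℤ) ≤ E v := by simpa using Finsupp.le_def.mp hE v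
    have h1 : E v ≠ 0 := Finsupp.mem_support_iff.mp hv
    omega
  have hdeg : Divisor.degree E = ∑ v ∈ E.support, E v := by
    rw [degree_eq_sum]
    refine Finset.sum_congr rfl fun v _ => ?_
    rw [deg_eq_one v]; simp
  have hcard : (E.support.card : ℤ) = ∑ _v ∈ E.support, (1 : ℤ) := by simp
  constructor
  · rw [hdeg, hcard]
    exact Finset.sum_le_sum hpos
  · intro h v hv
    rw [hdeg, hcard] at h
    have h2 : ∑ v ∈ E.support, (E v - 1) = 0 := by
      rw [Finset.sum_sub_distrib, ← h, sub_self]
    have h3 := (Finset.sum_eq_zero_iff_of_nonneg (fun w hw => by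
      have := hpos w hw; omega)).mp h2 v hv
    omega

omit [NeZero N] [FF1 L (FL N L)] in
/-- A divisor all of whose multiplicities are `1` is the sum of the places of its support. -/
theorem eq_sum_prim_of_apply_eq_one560 {E : Divisor L (FL N L)}
    (h : ∀ v ∈ E.support, E v = 1) : E = ∑ v ∈ E.support, prim v := by
  conv_lhs => rw [← Finsupp.sum_single E]
  rw [Finsupp.sum]
  refine Finset.sum_congr rfl fun v hv => ?_
  rw [h v hv]
  rfl

omit [NeZero N] [FF1 L (FL N L)] in
theorem divRationalOver_zero560 (K₁ : Subfield L) :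
    DivRationalOver K₁ (0 : Divisor L (FL N L)) := by
  intro P hP
  simp at hP

/-- **The core of GENSTAB.**  If `n • ξ = z - [B₀]` with `ξ` generic (and non-special) over `K₀`,
`n ≠ 0`, `B₀` rational over `K₀`, then `z` is generic over `K₀`. -/
theorem mem_Gen_of560 (hRIG : StmtRIG N L) (hCUSP : StmtCUSPRAT N L) (hZRAT : StmtZRAT N L)
    {K₀ : Subfield L} {P : Fin (gL N L) → Place L (FL N L)} (hP : IsGenericTuple K₀ P)
    (hell : ell (sumPl P) = 1) (z : Pic0 L (FL N L)) (n : ℕ) (hn : n ≠ 0)
    (B₀ : Divisor.degZero (K := L) (F := FL N L))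
    (hB₀ : DivRationalOver K₀ (B₀ : Divisor L (FL N L)))
    (hz : n • cls P = z - Pic0.mk B₀) : z ∈ Gen N L K₀ := by
  classical
  set E := minRep (cuspL N L) z with hE
  set S := E.support with hS
  set K₁ := relClosure560 K₀ ((fun Q : Place L (FL N L) => tval Q) '' (S : Set _)) with hK₁
  have hK₁c : AlgClosedIn K₁ := relClosure560_closed K₀ _
  have hK₀₁ : K₀ ≤ K₁ := le_relClosure560 K₀ _
  -- the points of `E` are rational over `K₁`
  have hSrat : ∀ Q ∈ S, IsRationalOver K₁ Q := fun Q hQ =>
    isRationalOver_of_tval_mem560 hZRAT hK₁c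
      (subset_relClosure560 K₀ _ (Set.mem_image_of_mem _ (Finset.mem_coe.mpr hQ)))
  -- the divisor `B' = E - m ∞ - B₀`
  have hB' : DivRationalOver K₁
      ((minDiv (cuspL N L) z - B₀ : Divisor.degZero (K := L) (F := FL N L)) :
        Divisor L (FL N L)) := by
    intro Q hQ
    rw [AddSubgroup.coe_sub, coe_minDiv, Finsupp.mem_support_iff] at hQ
    by_cases h1 : Q ∈ S
    · exact hSrat Q h1
    by_cases h2 : Q = cuspL N L
    · rw [h2]; exact hCUSP K₁
    by_cases h3 : Q ∈ (B₀ : Divisor L (FL N L)).support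
    · exact fun u c hc => hK₀₁ (hB₀ Q h3 u c hc)
    · exfalso
      apply hQ
      have e1 : E Q = 0 := by
        rw [hS, Finsupp.mem_support_iff, not_not] at h1
        exact h1
      have e3 : (B₀ : Divisor L (FL N L)) Q = 0 := by
        rw [Finsupp.mem_support_iff, not_not] at h3
        exact h3
      rw [Finsupp.sub_apply, Finsupp.sub_apply, Finsupp.smul_apply, prim_apply_of_ne h2, e3,
        ← hE, e1]
      simp
  have hmk : n • cls P = Pic0.mk (minDiv (cuspL N L) z - B₀) := by
    have : Pic0.mk (minDiv (cuspL N L) z - B₀)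
        = Pic0.mk (minDiv (cuspL N L) z) - Pic0.mk B₀ := rfl
    rw [this, mk_minDiv, hz]
  have hrat := hRIG K₁ hK₁c (cls P) n hn _ hB' hmk
  obtain ⟨-, hmr⟩ := minRep_cls560 hP hell
  rw [hmr] at hrat
  have hPi : ∀ i, tval (P i) ∈ K₁ := fun i =>
    tval_mem_of_isRationalOver560
      (hrat (P i) (Finsupp.mem_support_iff.mpr (sumPl_apply_pos560 P i).ne'))
  -- Steinitz
  have hEnn : 0 ≤ E := minRep_nonneg _ _
  obtain ⟨hc1, hc2⟩ := card_support_le_degree560 hEnn
  have hdegE : Divisor.degree E = minDeg (cuspL N L) z := degree_minRep _ _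
  have hmle : minDeg (cuspL N L) z ≤ gL N L := minDeg_le_genus _ _
  have hcard : S.card ≤ Fintype.card (Fin (gL N L)) := by
    rw [Fintype.card_fin]
    have : (S.card : ℤ) ≤ (gL N L : ℤ) := by
      rw [hdegE] at hc1
      exact hc1.trans (by exact_mod_cast hmle)
    exact_mod_cast this
  obtain ⟨hScard, -, hind⟩ := steinitz560 K₀ (fun i => tval (P i)) hP.2 S
    (fun Q : Place L (FL N L) => tval Q) hcard (fun i => mem_relClosure560.mp (hPi i))
  rw [Fintype.card_fin] at hScard
  have hmg : minDeg (cuspL N L) z = gL N L := by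
    have h1 : (S.card : ℤ) ≤ (minDeg (cuspL N L) z : ℤ) := by rw [← hdegE]; exact hc1
    rw [hScard] at h1
    have : gL N L ≤ minDeg (cuspL N L) z := by exact_mod_cast h1
    omega
  have hmult : ∀ v ∈ S, E v = 1 := hc2 (by rw [hdegE, hmg, hScard])
  -- `t` is finite on `S`
  have hfin : ∀ Q ∈ S, ∃ c : L, HasValue Q (tL N L) c := by
    intro Q hQ
    by_contra hnf
    have h0 : tval Q = 0 := tval_eq_zero560 hnf
    have htr : Transcendental K₀ (tval Q) := hind.transcendental ⟨Q, hQ⟩
    rw [h0] at htr
    exact htr isAlgebraic_zero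
  -- enumerate `S`
  let e : Fin (gL N L) ≃ S := (Finset.equivFinOfCardEq hScard).symm
  refine ⟨fun i => (e i).1, ⟨fun i => hfin _ (e i).2, hind.comp e e.injective⟩, ?_⟩
  have hsum : sumPl (fun i => ((e i).1 : Place L (FL N L))) = E := by
    rw [eq_sum_prim_of_apply_eq_one560 hmult, sumPl]
    rw [← Finset.sum_coe_sort S (fun v => prim v)]
    exact Equiv.sum_comp e (fun s : S => prim (s : Place L (FL N L)))
  rw [← mk_minDiv (cuspL N L) z, cls]
  congr 1
  apply Subtype.ext
  rw [coe_minDiv]
  show minRep (cuspL N L) z - minDeg (cuspL N L) z • prim (cuspL N L)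
    = sumPl (fun i => ((e i).1 : Place L (FL N L))) - (gL N L) • prim (cuspL N L)
  rw [hsum, hmg]

/-- **GENSTAB**: the set of generic classes over `K₀` is stable under `n •` and under translation
by classes rational over `K₀` (from RIG, CUSPRAT and ZRAT). -/
theorem stmtGENSTAB (hRIG : StmtRIG N L) (hCUSP : StmtCUSPRAT N L) (hZRAT : StmtZRAT N L) :
    StmtGENSTAB N L := by
  intro K₀ _ hns ξ hξ
  obtain ⟨P, hP, rfl⟩ := hξ
  have hell := hns P hP
  refine ⟨fun n hn => ?_, fun B hB => ?_⟩
  · refine mem_Gen_of560 hRIG hCUSP hZRAT hP hell (n • cls P) n hn 0 ?_ ?_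
    · exact divRationalOver_zero560 K₀
    · simp
  · refine mem_Gen_of560 hRIG hCUSP hZRAT hP hell (Pic0.mk B + cls P) 1 one_ne_zero B hB ?_
    rw [one_nsmul]; abel

end Main

end Fermat.Agent.S17.H560
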